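/-
GATE-J27 (S27) / node B4 `GJ27-BRANCH`, part 1 (helper9): **the local computation**.

`F / K` a field with the prelude places, `t y : F` with `F = K(t, y)`, `P ∈ K[X][Y]` monic in `Y`
with `P(t, y) = 0`, and a Bezout relation `a P + b ∂P/∂Y = D(X)` with `D ∈ K[X]`.  Then at every
place `v` of degree one centred at `t = c` with `D(c) ≠ 0` the function `t - c` is a uniformiser:
`v.ord (t - c) = 1`  (`F / K(t)` is unramified over `t = c`).

Proof (no fundamental identity, no construction of places): `y` is integral over `K[t] ⊆ 𝒪_v`, so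
`y ≡ b (mod 𝔪_v)` for a constant `b`, a SIMPLE root of `P(c, Y)`.  Writing
`P = (Y - b) Q + (X - c) A(X)` with `Q(c, b) = ∂P/∂Y (c, b) ≠ 0` gives `y - b ∈ (t - c) 𝒪_v`; by
induction on the order every nonzero element of `K[t, y]` has order divisible by
`e = ord_v (t - c)`, hence so has every element of `F = Frac K[t, y]`, hence `e = 1`.

Mathlib + `S24/DegOne` + `GJ/AuxLevel/BranchGen` (place bookkeeping) only.
-/
import Mathlib
import Fermat.Agent.S24.DegOne
import Fermat.Agent.GJ.AuxLevel.BranchGen

set_option autoImplicit false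

noncomputable section

namespace Fermat.Agent.GJ27.Branch

open AlgebraicCurve Polynomial IsLocalRing Fermat.Agent.S24

variable {K : Type*} [Field K]

/-! ### evaluation of bivariate polynomials at a pair -/

/-- evaluation of `p ∈ K[X][Y]` at a pair `(t, y)` of elements of a `K`-algebra -/
def ev2 {B : Type*} [CommRing B] [Algebra K B] (t y : B) : K[X][X] →+* B :=
  Polynomial.eval₂RingHom ((Polynomial.aeval t : K[X] →ₐ[K] B) : K[X] →+* B) y

section Ev2

variable {B : Type*} [CommRing B] [Algebra K B] (t y : B)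

theorem ev2_apply (p : K[X][X]) :
    ev2 t y p = Polynomial.eval₂ ((Polynomial.aeval t : K[X] →ₐ[K] B) : K[X] →+* B) y p := rfl

@[simp] theorem ev2_C (f : K[X]) : ev2 t y (C f) = Polynomial.aeval t f := by
  simp [ev2_apply]

@[simp] theorem ev2_X : ev2 t y (X : K[X][X]) = y := by
  simp [ev2_apply]

theorem ev2_C_C (a : K) : ev2 t y (C (C a)) = algebraMap K B a := by
  simp

theorem ev2_C_X_sub_C (c : K) : ev2 t y (C (X - C c)) = t - algebraMap K B c := by
  simp

theorem ev2_X_sub_C_C (b : K) : ev2 t y (X - C (C b)) = y - algebraMap K B b := by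
  simp

/-- compatibility with `K`-algebra homomorphisms -/
theorem algHom_ev2 {B' : Type*} [CommRing B'] [Algebra K B'] (φ : B →ₐ[K] B') (p : K[X][X]) :
    φ (ev2 t y p) = ev2 (φ t) (φ y) p := by
  rw [ev2_apply, ev2_apply]
  have h := Polynomial.hom_eval₂ p ((Polynomial.aeval t : K[X] →ₐ[K] B) : K[X] →+* B)
    (φ : B →+* B') y
  have hc : (φ : B →+* B').comp ((Polynomial.aeval t : K[X] →ₐ[K] B) : K[X] →+* B) =
      ((Polynomial.aeval (φ t) : K[X] →ₐ[K] B') : K[X] →+* B') := by
    apply Polynomial.ringHom_ext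
    · intro a
      simp
    · simp
  rw [hc] at h
  exact h

end Ev2

/-- the value of a bivariate polynomial at a pair of constants -/
def val2 (c b : K) (p : K[X][X]) : K := (p.eval (C b)).eval c

theorem val2_add (c b : K) (p q : K[X][X]) : val2 c b (p + q) = val2 c b p + val2 c b q := by
  simp [val2]

theorem val2_mul (c b : K) (p q : K[X][X]) : val2 c b (p * q) = val2 c b p * val2 c b q := by
  simp [val2]

theorem val2_C (c b : K) (f : K[X]) : val2 c b (C f) = f.eval c := by
  simp [val2]

/-- Taylor expansion to first order at `(c, b)`: `p - p(c,b) ∈ (Y - b, X - c)`. -/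
theorem exists_decomp (c b : K) (p : K[X][X]) :
    ∃ (q : K[X][X]) (r : K[X]),
      p = (X - C (C b)) * q + C ((X - C c) * r) + C (C (val2 c b p)) := by
  have h1 := Polynomial.modByMonic_add_div p (X - C (C b))
  rw [Polynomial.modByMonic_X_sub_C_eq_C_eval] at h1
  have h2 := Polynomial.modByMonic_add_div (p.eval (C b)) (X - C c)
  rw [Polynomial.modByMonic_X_sub_C_eq_C_eval] at h2
  refine ⟨p /ₘ (X - C (C b)), (p.eval (C b)) /ₘ (X - C c), ?_⟩
  have h3 : C ((X - C c) * ((p.eval (C b)) /ₘ (X - C c))) + C (C (val2 c b p)) =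
      (C (p.eval (C b)) : K[X][X]) := by
    rw [← C_add]
    congr 1
    rw [val2, add_comm]
    exact h2
  rw [add_assoc, h3, add_comm]
  exact h1.symm

/-- the `Y`-quotient of `P` by `Y - b` has the value `∂P/∂Y (c, b)` at `(c, b)` -/
theorem val2_divByMonic (c b : K) (P : K[X][X]) :
    val2 c b (P /ₘ (X - C (C b))) = val2 c b (derivative P) := by
  have h1 := Polynomial.modByMonic_add_div P (X - C (C b))
  set Q := P /ₘ (X - C (C b)) with hQ
  have h2 : derivative P = Q + (X - C (C b)) * derivative Q := by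
    conv_lhs => rw [← h1]
    rw [Polynomial.modByMonic_X_sub_C_eq_C_eval]
    simp only [derivative_add, derivative_C, derivative_mul, derivative_sub, derivative_X,
      zero_add, sub_zero, one_mul]
  rw [h2, val2, val2]
  simp

/-! ### the local computation -/

section Local

variable {F : Type*} [Field F] [Algebra K F]

theorem algebraMap_residueField_surj (v : Place K F) (h : v.deg = 1) :
    Function.Surjective (algebraMap K v.ResidueField) := by
  have h1 : Module.finrank K v.ResidueField = 1 := h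
  have h2 : (⊥ : Subalgebra K v.ResidueField) = ⊤ := Subalgebra.bot_eq_top_of_finrank_eq_one h1
  intro x
  have hx : x ∈ (⊥ : Subalgebra K v.ResidueField) := by rw [h2]; exact Algebra.mem_top
  exact Algebra.mem_bot.mp hx

/-- a nonzero constant is a unit of the valuation ring -/
theorem isUnit_algebraMap (v : Place K F) {a : K} (ha : a ≠ 0) :
    IsUnit (algebraMap K v.toValuationSubring a) :=
  (IsUnit.mk0 a ha).map (algebraMap K v.toValuationSubring)

/-- **Unramifiedness from a Bezout relation.**  See the file header. -/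
theorem ord_sub_eq_one_of_bezout (v : Place K F) (hdeg : v.deg = 1) {t y : F} {P : K[X][X]}
    (hPm : P.Monic) (hroot : ev2 t y P = 0)
    (hgen : ∀ f : F, ∃ p p' : K[X][X], ev2 t y p' ≠ 0 ∧ f = ev2 t y p / ev2 t y p')
    {a b' : K[X][X]} {D : K[X]} (hD : a * P + b' * derivative P = C D)
    {c : K} (hc : D.eval c ≠ 0) (h : 0 < v.ord (t - algebraMap K F c)) :
    v.ord (t - algebraMap K F c) = 1 := by
  classical
  have ht : t ∈ v.toValuationSubring := Fermat.Agent.GJ.Aux.Branch.mem_of_ord_sub_pos v h
  -- `y` is integral over `K[t] ⊆ 𝒪_v`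
  have hy : y ∈ v.toValuationSubring := by
    let t' : v.toValuationSubring := ⟨t, ht⟩
    let ψ : K[X] →+* v.toValuationSubring :=
      ((aeval t' : K[X] →ₐ[K] v.toValuationSubring) : K[X] →+* v.toValuationSubring)
    have hcomp : (algebraMap v.toValuationSubring F).comp ψ =
        ((aeval t : K[X] →ₐ[K] F) : K[X] →+* F) := by
      apply Polynomial.ringHom_ext
      · intro a
        simp only [ψ, RingHom.comp_apply, RingHom.coe_coe, aeval_C]
        rfl
      · simp only [ψ, RingHom.comp_apply, RingHom.coe_coe, aeval_X]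
        rfl
    have hint : IsIntegral v.toValuationSubring y := by
      refine ⟨P.map ψ, hPm.map ψ, ?_⟩
      rw [Polynomial.eval₂_map, hcomp]
      exact hroot
    obtain ⟨z, hz⟩ := IsIntegrallyClosed.isIntegral_iff.mp hint
    rw [← hz]
    exact z.2
  set t' : v.toValuationSubring := ⟨t, ht⟩ with ht'
  set y' : v.toValuationSubring := ⟨y, hy⟩ with hy'
  set Φ : K[X][X] →+* v.toValuationSubring := ev2 t' y' with hΦ
  -- coercion to `F`
  have hcoe : ∀ p, ((Φ p : v.toValuationSubring) : F) = ev2 t y p := by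
    intro p
    have := algHom_ev2 t' y' (IsScalarTower.toAlgHom K v.toValuationSubring F) p
    exact this
  set 𝔪 := maximalIdeal v.toValuationSubring with h𝔪
  -- the value `b` of `y`
  obtain ⟨b, hb⟩ := algebraMap_residueField_surj v hdeg (residue v.toValuationSubring y')
  set tc : v.toValuationSubring := t' - algebraMap K v.toValuationSubring c with htc
  set yb : v.toValuationSubring := y' - algebraMap K v.toValuationSubring b with hyb
  have htcF : (tc : F) = t - algebraMap K F c := rfl
  have htc0 : tc ≠ 0 := by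
    intro h0
    have : (tc : F) = 0 := by rw [h0]; rfl
    rw [htcF] at this
    rw [this] at h
    simp at h
  have htcm : tc ∈ 𝔪 := by
    rw [h𝔪, ← PlaceB.ord_pos_iff_mem_maximalIdeal v htc0, htcF]
    exact h
  have hybm : yb ∈ 𝔪 := by
    rw [h𝔪, ← residue_eq_zero_iff, hyb, map_sub, sub_eq_zero, ← hb]
    rfl
  have hΦtc : Φ (C (X - C c)) = tc := by rw [hΦ, ev2_C_X_sub_C]
  have hΦyb : Φ (X - C (C b)) = yb := by rw [hΦ, ev2_X_sub_C_C]
  -- first-order expansion
  have hexp : ∀ p : K[X][X], ∃ (q : K[X][X]) (r : K[X]),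
      Φ p = yb * Φ q + tc * Φ (C r) + algebraMap K v.toValuationSubring (val2 c b p) := by
    intro p
    obtain ⟨q, r, hp⟩ := exists_decomp c b p
    refine ⟨q, r, ?_⟩
    conv_lhs => rw [hp]
    rw [map_add, map_add, map_mul, hΦyb, C_mul, map_mul, hΦtc, hΦ, ev2_C_C]
  have hmem : ∀ p : K[X][X], Φ p - algebraMap K v.toValuationSubring (val2 c b p) ∈ 𝔪 := by
    intro p
    obtain ⟨q, r, hp⟩ := hexp p
    rw [hp, add_sub_cancel_right]
    exact Ideal.add_mem _ (Ideal.mul_mem_right _ _ hybm) (Ideal.mul_mem_right _ _ htcm)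
  have hunit : ∀ p : K[X][X], val2 c b p ≠ 0 → IsUnit (Φ p) := by
    intro p hp
    by_contra hnu
    have h1 : Φ p ∈ 𝔪 := (mem_maximalIdeal _).mpr hnu
    have h2 := Ideal.sub_mem _ h1 (hmem p)
    rw [sub_sub_cancel] at h2
    exact (mem_maximalIdeal _).mp h2 (isUnit_algebraMap v hp)
  -- `P(c, b) = 0`
  have hΦP : Φ P = 0 := by
    apply Subtype.ext
    rw [hcoe]
    exact hroot
  have hvalP : val2 c b P = 0 := by
    by_contra hne
    have := hunit P hne
    rw [hΦP] at this
    exact not_isUnit_zero this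
  -- `∂P/∂Y (c, b) ≠ 0`
  have hvalP' : val2 c b (derivative P) ≠ 0 := by
    intro h0
    have h1 := congrArg (val2 c b) hD
    rw [val2_add, val2_mul, val2_mul, hvalP, h0, mul_zero, mul_zero, add_zero, val2_C] at h1
    exact hc h1.symm
  -- the relation `P = (Y - b) Q + (X - c) A`
  set Q := P /ₘ (X - C (C b)) with hQ
  have hvalQ : val2 c b Q ≠ 0 := by rw [hQ, val2_divByMonic]; exact hvalP'
  have hQu : IsUnit (Φ Q) := hunit Q hvalQ
  obtain ⟨A, hA⟩ : ∃ A : K[X], P = (X - C (C b)) * Q + C ((X - C c) * A) := by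
    have h1 := Polynomial.modByMonic_add_div P (X - C (C b))
    rw [Polynomial.modByMonic_X_sub_C_eq_C_eval] at h1
    have h2 := Polynomial.modByMonic_add_div (P.eval (C b)) (X - C c)
    rw [Polynomial.modByMonic_X_sub_C_eq_C_eval] at h2
    have h3 : (P.eval (C b)).eval c = 0 := hvalP
    rw [h3, C_0, zero_add] at h2
    refine ⟨(P.eval (C b)) /ₘ (X - C c), ?_⟩
    rw [h2, add_comm]
    exact h1.symm
  have hrel : yb * Φ Q + tc * Φ (C A) = 0 := by
    have h1 := congrArg Φ hA
    rw [hΦP, map_add, map_mul, hΦyb, C_mul, map_mul, hΦtc] at h1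
    exact h1.symm
  -- the key step: `Φ Q * Φ p = tc * Φ p'` when `p(c, b) = 0`
  have hstep : ∀ p : K[X][X], val2 c b p = 0 → ∃ p' : K[X][X], Φ Q * Φ p = tc * Φ p' := by
    intro p hp
    obtain ⟨q, r, hpq⟩ := hexp p
    rw [hp, map_zero, add_zero] at hpq
    refine ⟨C r * Q - C A * q, ?_⟩
    rw [hpq, map_sub, map_mul, map_mul]
    have h2 : yb * Φ Q = -(tc * Φ (C A)) := eq_neg_of_add_eq_zero_left hrel
    calc Φ Q * (yb * Φ q + tc * Φ (C r)) = (yb * Φ Q) * Φ q + tc * (Φ (C r) * Φ Q) := by ring
      _ = tc * (Φ (C r) * Φ Q - Φ (C A) * Φ q) := by rw [h2]; ring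
  -- orders
  set e : ℤ := v.ord (t - algebraMap K F c) with he
  have hordQ : v.ord ((Φ Q : v.toValuationSubring) : F) = 0 := by
    have := v.ord_coe_unit hQu.unit
    simpa using this
  have hQ0 : ((Φ Q : v.toValuationSubring) : F) ≠ 0 := by
    intro h0
    have : Φ Q = 0 := Subtype.ext h0
    rw [this] at hQu
    exact not_isUnit_zero hQu
  have hdvd : ∀ n : ℕ, ∀ p : K[X][X], Φ p ≠ 0 →
      v.ord ((Φ p : v.toValuationSubring) : F) = n → e ∣ (n : ℤ) := by
    intro n
    induction n using Nat.strong_induction_on with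
    | _ n ih =>
      intro p hp0 hpn
      by_cases hval : val2 c b p = 0
      · obtain ⟨p', hp'⟩ := hstep p hval
        have hpF : ((Φ p : v.toValuationSubring) : F) ≠ 0 := fun h0 => hp0 (Subtype.ext h0)
        have hp'0 : Φ p' ≠ 0 := by
          intro h0
          rw [h0, mul_zero] at hp'
          rcases mul_eq_zero.mp hp' with h1 | h1
          · rw [h1] at hQu; exact not_isUnit_zero hQu
          · exact hp0 h1
        have hp'F : ((Φ p' : v.toValuationSubring) : F) ≠ 0 := fun h0 => hp'0 (Subtype.ext h0)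
        have htcF0 : (tc : F) ≠ 0 := fun h0 => htc0 (Subtype.ext h0)
        have h1 : ((Φ Q : v.toValuationSubring) : F) * ((Φ p : v.toValuationSubring) : F) =
            (tc : F) * ((Φ p' : v.toValuationSubring) : F) := by
          have := congrArg (fun z : v.toValuationSubring => (z : F)) hp'
          simpa using this
        have h2 := congrArg v.ord h1
        rw [v.ord_mul hQ0 hpF, v.ord_mul htcF0 hp'F, hordQ, zero_add, hpn, htcF, ← he] at h2
        have h3 : 0 ≤ v.ord ((Φ p' : v.toValuationSubring) : F) :=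
          (PlaceB.ord_nonneg_iff v hp'F).mpr (Φ p').2
        obtain ⟨n', hn'⟩ := Int.eq_ofNat_of_zero_le h3
        have hlt : n' < n := by
          have : (n' : ℤ) < n := by rw [h2, hn']; linarith
          exact_mod_cast this
        have h4 := ih n' hlt p' hp'0 hn'
        rw [h2, hn']
        exact dvd_add (dvd_refl e) h4
      · have hu := hunit p hval
        have := v.ord_coe_unit hu.unit
        have h0 : v.ord ((Φ p : v.toValuationSubring) : F) = 0 := by simpa using this
        rw [h0] at hpn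
        rw [← hpn]
        exact dvd_zero e
  -- every element of `F` has order divisible by `e`
  have hall : ∀ f : F, f ≠ 0 → e ∣ v.ord f := by
    intro f hf
    obtain ⟨p, p', hp', hfp⟩ := hgen f
    have hp0 : ev2 t y p ≠ 0 := by
      intro h0
      rw [h0, zero_div] at hfp
      exact hf hfp
    have hΦp : Φ p ≠ 0 := by
      intro h0
      apply hp0
      rw [← hcoe, h0]
      rfl
    have hΦp' : Φ p' ≠ 0 := by
      intro h0
      apply hp'
      rw [← hcoe, h0]
      rfl
    have h1 : 0 ≤ v.ord (ev2 t y p) := by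
      rw [← hcoe]
      exact (PlaceB.ord_nonneg_iff v (by rw [hcoe]; exact hp0)).mpr (Φ p).2
    have h2 : 0 ≤ v.ord (ev2 t y p') := by
      rw [← hcoe]
      exact (PlaceB.ord_nonneg_iff v (by rw [hcoe]; exact hp')).mpr (Φ p').2
    obtain ⟨n, hn⟩ := Int.eq_ofNat_of_zero_le h1
    obtain ⟨n', hn'⟩ := Int.eq_ofNat_of_zero_le h2
    have d1 := hdvd n p hΦp (by rw [hcoe]; exact hn)
    have d2 := hdvd n' p' hΦp' (by rw [hcoe]; exact hn')
    rw [hfp, div_eq_mul_inv, v.ord_mul hp0 (inv_ne_zero hp'), v.ord_inv, hn, hn']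
    exact dvd_add d1 (Dvd.dvd.neg_right d2)
  -- a uniformiser has order one
  obtain ⟨π, hπ⟩ := IsDiscreteValuationRing.exists_irreducible v.toValuationSubring
  have hπ1 := v.ord_coe_irreducible hπ
  have hπ0 : (π : F) ≠ 0 := by
    intro h0
    exact hπ.ne_zero (Subtype.ext h0)
  have h1 := hall (π : F) hπ0
  rw [hπ1] at h1
  have hepos : 0 < e := h
  exact Int.eq_one_of_dvd_one hepos.le h1

end Local

end Fermat.Agent.GJ27.Branch
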