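/-
GATE-J27 (S27) / node B4 `GJ27-BRANCH`, part 2 (helper9): **branch data of a plane model**.

Input (= the exports of B1 `GJ27-EIS`, in hypothesis form): `F = K(t, y)`, `P ∈ K[X][Y]` monic in
`Y` with `P(t, y) = 0`, separable over `K(X)`.  Output (= the `hbr`/`G0` inputs of
`GJ/J1/GenusBranch.RedData.gLat_le_of_placeBranch`, and the finite set of constants that the
Chevalley place of B2 must contain):

* `exists_bezout_of_separable` : separable over the fraction field of `K[X]` ⟹ a Bezout relation
                                 `a P + b ∂P/∂Y = C D`, `D ≠ 0` in `K[X]` (no discriminants);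
* `branchPoly D`               : the monic squarefree polynomial with the roots of `D`;
* `placeBranch_of_bezout`      : `PlaceBranch K t (branchPoly D)`  (local computation of `Local.lean`);
* `exists_lift_squarefree`     : a monic separable `G0 ∈ K[X]` has a finite set `S` of constants such
                                 that over every valuation subring `A ⊇ S` it lifts to a monic
                                 `G ∈ A[X]` with squarefree image under EVERY ring hom `A → k`
                                 (Bezout coefficients in `A`; no discriminants);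
* `exists_branch_data`         : all together.
-/
import Fermat.Agent.GJ27.Branch.Local
import Fermat.Agent.GJ.J1.DifferentBranch
import Fermat.Agent.GJ.J1.Defs

set_option autoImplicit false

noncomputable section

namespace Fermat.Agent.GJ27.Branch

open AlgebraicCurve Polynomial IsLocalRing Fermat.Agent.S24
open Fermat.Agent.GJ.J1.DiffAdapter (PlaceBranch)

universe u w

variable {K : Type u} [Field K]

/-! ### generation: `K(t, y) = F` in ratio form -/

section Gen

variable {F : Type*} [Field F] [Algebra K F]

theorem exists_ev2_of_mem_adjoin (t y : F) {r : F} (hr : r ∈ Algebra.adjoin K ({t, y} : Set F)) :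
    ∃ p : K[X][X], ev2 t y p = r := by
  induction hr using Algebra.adjoin_induction with
  | mem x hx =>
    rcases hx with rfl | hx
    · exact ⟨C X, by simp⟩
    · rw [Set.mem_singleton_iff] at hx
      subst hx
      exact ⟨X, by simp⟩
  | algebraMap a => exact ⟨C (C a), ev2_C_C t y a⟩
  | add x z _ _ hx hz =>
    obtain ⟨p, rfl⟩ := hx
    obtain ⟨q, rfl⟩ := hz
    exact ⟨p + q, map_add _ _ _⟩
  | mul x z _ _ hx hz =>
    obtain ⟨p, rfl⟩ := hx
    obtain ⟨q, rfl⟩ := hz
    exact ⟨p * q, map_mul _ _ _⟩

/-- `K(t, y) = F` ⟹ every element of `F` is a ratio of polynomial expressions in `t, y`. -/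
theorem exists_ratio_of_adjoin_eq_top {t y : F}
    (h : IntermediateField.adjoin K ({t, y} : Set F) = ⊤) (f : F) :
    ∃ p p' : K[X][X], ev2 t y p' ≠ 0 ∧ f = ev2 t y p / ev2 t y p' := by
  have hf : f ∈ IntermediateField.adjoin K ({t, y} : Set F) := by rw [h]; trivial
  obtain ⟨r, hr, s, hs, hfrs⟩ := IntermediateField.mem_adjoin_iff_div.mp hf
  by_cases hs0 : s = 0
  · refine ⟨0, 1, by simp, ?_⟩
    rw [hfrs, hs0]
    simp
  · obtain ⟨p, hp⟩ := exists_ev2_of_mem_adjoin t y hr
    obtain ⟨p', hp'⟩ := exists_ev2_of_mem_adjoin t y hs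
    exact ⟨p, p', by rw [hp']; exact hs0, by rw [hp, hp', hfrs]⟩

end Gen

/-! ### a Bezout relation from separability over `K(X)` -/

/-- If `P ∈ K[X][Y]` is separable over the fraction field `L` of `K[X]` then
`a P + b ∂P/∂Y = D` for some `a b ∈ K[X][Y]` and a nonzero `D ∈ K[X]`. -/
theorem exists_bezout_of_separable (L : Type*) [Field L] [Algebra K[X] L] [IsFractionRing K[X] L]
    {P : K[X][X]} (hsep : (P.map (algebraMap K[X] L)).Separable) :
    ∃ (a b : K[X][X]) (D : K[X]), D ≠ 0 ∧ a * P + b * derivative P = C D := by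
  classical
  obtain ⟨a, b, hab⟩ := hsep
  obtain ⟨da, hdaM, hda⟩ := IsLocalization.integerNormalization_spec (nonZeroDivisors K[X]) a
  obtain ⟨db, hdbM, hdb⟩ := IsLocalization.integerNormalization_spec (nonZeroDivisors K[X]) b
  set a' := IsLocalization.integerNormalization (nonZeroDivisors K[X]) a with ha'
  set b' := IsLocalization.integerNormalization (nonZeroDivisors K[X]) b with hb'
  have hinj : Function.Injective (algebraMap K[X] L) := IsFractionRing.injective K[X] L
  refine ⟨C db * a', C da * b', da * db,
    mul_ne_zero (nonZeroDivisors.ne_zero hdaM) (nonZeroDivisors.ne_zero hdbM), ?_⟩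
  apply Polynomial.map_injective _ hinj
  rw [Polynomial.map_add, Polynomial.map_mul, Polynomial.map_mul, Polynomial.map_mul,
    Polynomial.map_mul, hda, hdb, Polynomial.map_C, Polynomial.map_C, Polynomial.map_C,
    ← Polynomial.derivative_map]
  have e1 : ∀ (d : K[X]) (q : L[X]), d • q = C (algebraMap K[X] L d) * q := by
    intro d q
    rw [Algebra.smul_def]
    rfl
  rw [e1, e1, map_mul, C_mul]
  linear_combination (C (algebraMap K[X] L da) * C (algebraMap K[X] L db)) * hab

/-! ### the branch polynomial -/

/-- the monic squarefree polynomial with the same roots as `D` -/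
def branchPoly (D : K[X]) : K[X] := by
  classical
  exact ∏ c ∈ D.roots.toFinset, (X - C c)

theorem branchPoly_monic (D : K[X]) : (branchPoly D).Monic := by
  classical
  rw [branchPoly]
  exact Polynomial.monic_prod_of_monic _ _ fun c _ => Polynomial.monic_X_sub_C c

theorem branchPoly_separable (D : K[X]) : (branchPoly D).Separable := by
  classical
  rw [branchPoly]
  exact (Polynomial.separable_prod_X_sub_C_iff' (f := fun c : K => c)).mpr
    (fun x _ z _ h => h)

theorem eval_ne_zero_of_branchPoly {D : K[X]} (hD : D ≠ 0) {c : K}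
    (h : (branchPoly D).eval c ≠ 0) : D.eval c ≠ 0 := by
  classical
  intro h0
  apply h
  rw [branchPoly, Polynomial.eval_prod]
  apply Finset.prod_eq_zero (i := c)
  · rw [Multiset.mem_toFinset, Polynomial.mem_roots hD]
    exact h0
  · simp

/-! ### PlaceBranch -/

section Branch

variable {F : Type*} [Field F] [Algebra K F]

/-- **PlaceBranch from a Bezout relation**: `F = K(t,y)`, `P(t,y) = 0`, `a P + b P_Y = D(X) ≠ 0`
⟹ `F / K(t)` is unramified over every `t = c` with `D(c) ≠ 0`. -/
theorem placeBranch_of_bezout (hdeg : ∀ v : Place K F, v.deg = 1) {t y : F} {P : K[X][X]}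
    (hPm : P.Monic) (hroot : ev2 t y P = 0)
    (hgen : ∀ f : F, ∃ p p' : K[X][X], ev2 t y p' ≠ 0 ∧ f = ev2 t y p / ev2 t y p')
    {a b : K[X][X]} {D : K[X]} (hD0 : D ≠ 0) (hD : a * P + b * derivative P = C D) :
    PlaceBranch K t (branchPoly D) := by
  intro v c hc h
  exact ord_sub_eq_one_of_bezout v (hdeg v) hPm hroot hgen hD
    (eval_ne_zero_of_branchPoly hD0 hc) h

end Branch

/-! ### integral lifts with squarefree reduction -/

/-- A monic separable `G0 ∈ K[X]` lifts, over every valuation subring containing a suitable FINITE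
set of constants, to a monic polynomial whose image under every ring hom to a field is
squarefree. -/
theorem exists_lift_squarefree (G0 : K[X]) (hm : G0.Monic) (hs : G0.Separable) :
    ∃ S : Finset K, ∀ A : ValuationSubring K, (∀ s ∈ S, s ∈ A) →
      ∃ G : Polynomial A, G.Monic ∧ G.map A.subtype = G0 ∧
        ∀ {k : Type w} [Field k] (φ : A →+* k), Squarefree (G.map φ) := by
  classical
  obtain ⟨a, b, hab⟩ := hs
  refine ⟨G0.coeffs ∪ a.coeffs ∪ b.coeffs, fun A hA => ?_⟩
  have hlift : ∀ p : K[X], (∀ s ∈ p.coeffs, s ∈ A) → p ∈ Polynomial.lifts A.subtype := by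
    intro p hp
    rw [Polynomial.lifts_iff_coeff_lifts]
    intro n
    by_cases h0 : p.coeff n = 0
    · exact ⟨0, by rw [h0]; simp⟩
    · exact ⟨⟨p.coeff n, hp _ (Polynomial.coeff_mem_coeffs h0)⟩, rfl⟩
  have hG0 : G0 ∈ Polynomial.lifts A.subtype :=
    hlift G0 fun s hs => hA s (by simp [hs])
  have ha : a ∈ Polynomial.lifts A.subtype := hlift a fun s hs => hA s (by simp [hs])
  have hb : b ∈ Polynomial.lifts A.subtype := hlift b fun s hs => hA s (by simp [hs])
  obtain ⟨G, hG, -, hGm⟩ := Polynomial.lifts_and_degree_eq_and_monic hG0 hm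
  obtain ⟨a', ha'⟩ := (Polynomial.mem_lifts _).mp ha
  obtain ⟨b', hb'⟩ := (Polynomial.mem_lifts _).mp hb
  refine ⟨G, hGm, hG, fun {k} _ φ => ?_⟩
  have hrel : a' * G + b' * derivative G = 1 := by
    apply Polynomial.map_injective A.subtype Subtype.val_injective
    rw [Polynomial.map_add, Polynomial.map_mul, Polynomial.map_mul, ← Polynomial.derivative_map,
      ha', hb', hG, Polynomial.map_one]
    exact hab
  have hsep : (G.map φ).Separable := by
    refine ⟨a'.map φ, b'.map φ, ?_⟩
    rw [Polynomial.derivative_map, ← Polynomial.map_mul, ← Polynomial.map_mul,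
      ← Polynomial.map_add, hrel, Polynomial.map_one]
  exact hsep.squarefree

/-! ### all together -/

section Final

variable {F : Type*} [Field F] [Algebra K F]

/-- **B4, hypothesis form.**  From the plane model `P(t, y) = 0` of `F / K` (monic in `Y`,
`F = K(t, y)`, with a Bezout relation): a monic `G0 ∈ K[X]` with `PlaceBranch K t G0`, and a finite
set `S ⊆ K` such that over every valuation subring `A ⊇ S` of `K` the polynomial `G0` comes from a
monic `G ∈ A[X]` all of whose reductions are squarefree. -/
theorem exists_branch_data (hdeg : ∀ v : Place K F, v.deg = 1) {t y : F} {P : K[X][X]}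
    (hPm : P.Monic) (hroot : ev2 t y P = 0)
    (hgen : ∀ f : F, ∃ p p' : K[X][X], ev2 t y p' ≠ 0 ∧ f = ev2 t y p / ev2 t y p')
    {a b : K[X][X]} {D : K[X]} (hD0 : D ≠ 0) (hD : a * P + b * derivative P = C D) :
    ∃ (G0 : K[X]) (S : Finset K), G0.Monic ∧ PlaceBranch K t G0 ∧
      ∀ A : ValuationSubring K, (∀ s ∈ S, s ∈ A) →
        ∃ G : Polynomial A, G.Monic ∧ G.map A.subtype = G0 ∧
          ∀ {k : Type w} [Field k] (φ : A →+* k), Squarefree (G.map φ) := by
  obtain ⟨S, hS⟩ := exists_lift_squarefree.{u, w} (branchPoly D) (branchPoly_monic D)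
    (branchPoly_separable D)
  exact ⟨branchPoly D, S, branchPoly_monic D,
    placeBranch_of_bezout hdeg hPm hroot hgen hD0 hD, hS⟩

/-- **B4 from the field-theoretic exports of B1**: `K(t, y) = F` as intermediate fields and
separability of `P` over the fraction field of `K[X]`. -/
theorem exists_branch_data_of_separable (hdeg : ∀ v : Place K F, v.deg = 1) {t y : F}
    {P : K[X][X]} (hPm : P.Monic) (hroot : ev2 t y P = 0)
    (hgen : IntermediateField.adjoin K ({t, y} : Set F) = ⊤)
    (L : Type*) [Field L] [Algebra K[X] L] [IsFractionRing K[X] L]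
    (hsep : (P.map (algebraMap K[X] L)).Separable) :
    ∃ (G0 : K[X]) (S : Finset K), G0.Monic ∧ PlaceBranch K t G0 ∧
      ∀ A : ValuationSubring K, (∀ s ∈ S, s ∈ A) →
        ∃ G : Polynomial A, G.Monic ∧ G.map A.subtype = G0 ∧
          ∀ {k : Type w} [Field k] (φ : A →+* k), Squarefree (G.map φ) := by
  obtain ⟨a, b, D, hD0, hD⟩ := exists_bezout_of_separable L hsep
  exact exists_branch_data.{u, w} hdeg hPm hroot (exists_ratio_of_adjoin_eq_top hgen) hD0 hD

/-- **The consumption shape of `GJ/J1/GenusBranch.RedData.gLat_le_of_placeBranch`**: if the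
valuation ring `R.A` of a reduction datum contains the finite set `S` of `exists_branch_data`, the
inputs `G0 hmonic hsq hbr` of `gLat_le_of_placeBranch` exist. -/
theorem exists_gLat_inputs {k Ft : Type*} [Field k] [Field Ft] [Algebra k Ft]
    (R : Fermat.Agent.GJ.J1.RedData K F k Ft) {t : F} {G0 : K[X]} (hbr : PlaceBranch K t G0)
    (hlift : ∃ G : Polynomial R.A, G.Monic ∧ G.map R.A.subtype = G0 ∧ Squarefree (G.map R.res)) :
    ∃ G : Polynomial R.A, G.Monic ∧ Squarefree (G.map R.res) ∧
      PlaceBranch K t (G.map R.A.subtype) := by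
  obtain ⟨G, hGm, hG, hsq⟩ := hlift
  exact ⟨G, hGm, hsq, by rw [hG]; exact hbr⟩

end Final

end Fermat.Agent.GJ27.Branch
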