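/-
GATE-J27 (S27) / node B4 `GJ27-BRANCH`, part 3 (helper9): **plug onto B1**.

The exports of `GJ27/Eis/Main.exists_eisenstein_presentation` (helper62), VERBATIM, feed
`exists_branch_data`: no further hypothesis.
-/
import Fermat.Agent.GJ27.Branch.Main

set_option autoImplicit false

noncomputable section

namespace Fermat.Agent.GJ27.Branch

open AlgebraicCurve Polynomial IntermediateField Fermat.Agent.S24
open Fermat.Agent.GJ.J1.DiffAdapter (PlaceBranch)

universe u w

variable {K : Type u} [Field K] {F : Type*} [Field F] [Algebra K F]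

/-- `K(t)(y) = F` (tower form) ⟹ `K(t, y) = F`. -/
theorem adjoin_pair_eq_top {t y : F} (h : (K⟮t⟯)⟮y⟯ = ⊤) :
    IntermediateField.adjoin K ({t, y} : Set F) = ⊤ := by
  rw [← IntermediateField.adjoin_simple_adjoin_simple, h, IntermediateField.restrictScalars_top]

/-- **B4 on the exports of B1, verbatim.** -/
theorem exists_branch_data_of_eis [IsAlgClosed K] (x₀ : F) [IsGen K x₀] {t y : F}
    {P : K[X][X]} (hPm : P.Monic)
    (hroot : Polynomial.eval₂ (Polynomial.aeval t : K[X] →ₐ[K] F).toRingHom y P = 0)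
    (htop : (K⟮t⟯)⟮y⟯ = ⊤)
    {U V : K[X][X]} {δ : K[X]} (hδ : δ ≠ 0) (hbez : U * P + V * derivative P = C δ) :
    ∃ (G0 : K[X]) (S : Finset K), G0.Monic ∧ PlaceBranch K t G0 ∧
      ∀ A : ValuationSubring K, (∀ s ∈ S, s ∈ A) →
        ∃ G : Polynomial A, G.Monic ∧ G.map A.subtype = G0 ∧
          ∀ {k : Type w} [Field k] (φ : A →+* k), Squarefree (G.map φ) :=
  exists_branch_data.{u, w} (fun v => PlaceB.deg_eq_one v x₀) hPm hroot
    (exists_ratio_of_adjoin_eq_top (adjoin_pair_eq_top htop)) hδ hbez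

end Fermat.Agent.GJ27.Branch
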